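import Fermat.Agent.LT.General.Setup
import Fermat.Agent.Duality.Bridge.Ramified

set_option autoImplicit false

/-!
# The setup of a continuous representation
-/

noncomputable section

open scoped Topology

namespace FermatAgent.LTG

local notation "Qb" => AlgebraicClosure ℚ
local notation "GQ" => AlgebraicClosure ℚ ≃ₐ[ℚ] AlgebraicClosure ℚ

theorem exists_setup (ρ : GQ →* GL (Fin 2) (ZMod 3)) (hρ : Continuous ρ)
    (hsurj : Function.Surjective ρ)
    (hdet : ∀ σ, Matrix.GeneralLinearGroup.det (ρ σ) = WeierstrassCurve.modThreeCyclotomicChar σ) :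
    ∃ S : Setup, S.ρ = ρ := by
  have hnhds : {σ : GQ | ρ σ = 1} ∈ 𝓝 (1 : GQ) := by
    have h := hρ.continuousAt (x := (1 : GQ))
    rw [ContinuousAt, map_one] at h
    exact h (isOpen_discrete {(1 : GL (Fin 2) (ZMod 3))} |>.mem_nhds rfl)
  obtain ⟨L, hL, hsub⟩ := (krullTopology_mem_nhds_one_iff ℚ Qb _).mp hnhds
  have hker : ∀ σ : GQ, (∀ x ∈ L, σ x = x) → ρ σ = 1 := fun σ hσ =>
    hsub ((IntermediateField.mem_fixingSubgroup_iff L σ).mpr hσ)
  obtain ⟨T, -, hT⟩ := Duality.exists_isUnramifiedOutside L ∅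
  refine ⟨{
    ρ := ρ
    finiteLevel := ⟨L, hL, hker⟩
    surjective := hsurj
    det_eq := hdet
    m := 6 * ∏ q ∈ T, (q : ℕ)
    m_ne_zero := mul_ne_zero (by norm_num) (Finset.prod_ne_zero_iff.mpr fun q _ => q.2.ne_zero)
    six_dvd := dvd_mul_right _ _
    unramified := fun q hq hqm A hA σ hσ => hker σ ?_ }, rfl⟩
  have hqT : (⟨q, hq⟩ : Nat.Primes) ∉ T := fun h =>
    hqm ((Finset.dvd_prod_of_mem (fun q : Nat.Primes => (q : ℕ)) h).trans (dvd_mul_left _ _))
  exact fun x hx => (IntermediateField.mem_fixingSubgroup_iff L σ).mp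
    (hT.2 ⟨q, hq⟩ hqT A hA hσ) x hx

end FermatAgent.LTG

end
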