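import Fermat.Agent.LT.General.Spectral.Data
import Fermat.Agent.LT.General.Geom.Facts
import Fermat.Agent.LT.General.FieldK
import Fermat.Agent.LT.General.ClassField.Field
import Fermat.Agent.LT.Descent.Facts.Frob
import Fermat.Agent.GalRep.Density.Frobenius

set_option autoImplicit false

/-!
# The traces at the places of `F`, the split letters and the infinite places
-/

noncomputable section

open NumberField IsDedekindDomain
open scoped Pointwise
open FermatAgent.LT (galPlace galInt galPlace_asIdeal q8Trace q8Trace_conj' IsFrobOver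
  exists_isFrobOver over_of_nonunits nonunits_of_over exists_frobenius_over quaternionSubgroup
  natCast_mem_galPlace absNorm_galPlace)

namespace FermatAgent.LTG.Setup

open FermatAgent.RT (mem_of_isIntegral_int)
open FermatAgent.Duality.Global (toZB Over IsPlace exists_place exists_over exists_smul_eq_of_over)

local notation "Qb" => AlgebraicClosure ℚ
local notation "GQ" => AlgebraicClosure ℚ ≃ₐ[ℚ] AlgebraicClosure ℚ

attribute [local instance] FermatAgent.RT.isGalois_algClosureRat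

variable (S : Setup)

theorem rho_inertia_eq_one {w : HeightOneSpectrum (𝓞 S.F)}
    (hw : (S.m : 𝓞 S.F) ∉ w.asIdeal) {A : ValuationSubring Qb} (hA : Over S.F A w)
    {i : GQ} (hi : i ∈ A.inertiaSubgroupIn ℚ) : S.ρ i = 1 := by
  obtain ⟨l, hl, hlA⟩ := hA.1
  refine S.unramified l hl (fun hdvd => hw ?_) A hlA i hi
  obtain ⟨c, hc⟩ := hdvd
  rw [hc, Nat.cast_mul]
  exact Ideal.mul_mem_right _ _ (hA.natCast_mem hlA)

theorem rho_eq_of_frob {w : HeightOneSpectrum (𝓞 S.F)}
    (hw : (S.m : 𝓞 S.F) ∉ w.asIdeal) {A : ValuationSubring Qb} (hA : Over S.F A w)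
    {N : ℕ} {σ τ : GQ} (hσ : A.IsFrobeniusAt σ N) (hτ : A.IsFrobeniusAt τ N) :
    S.ρ σ = S.ρ τ := by
  have := S.rho_inertia_eq_one hw hA (FermatAgent.TW.inv_mul_mem_inertia hσ hτ)
  rwa [map_mul, map_inv, inv_mul_eq_one] at this

theorem q8Trace_eq_of_frob {w : HeightOneSpectrum (𝓞 S.F)}
    (hw : (S.m : 𝓞 S.F) ∉ w.asIdeal) {A B : ValuationSubring Qb} (hA : Over S.F A w)
    (hB : Over S.F B w) {σ τ : GQ} (hσ : A.IsFrobeniusAt σ (Ideal.absNorm w.asIdeal))
    (hτ : B.IsFrobeniusAt τ (Ideal.absNorm w.asIdeal)) :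
    q8Trace (S.ρ τ) = q8Trace (S.ρ σ) := by
  obtain ⟨g, hg, rfl⟩ := exists_smul_eq_of_over hA hB
  rw [← S.rho_eq_of_frob hw hB (FermatAgent.GalRep.isFrobeniusAt_conj g hσ) hτ, map_mul, map_mul,
    map_inv, q8Trace_conj']

theorem over_inv_smul {A : ValuationSubring Qb} {w : HeightOneSpectrum (𝓞 S.F)}
    (hA : Over S.F A w) (g : GQ) : Over S.F (g⁻¹ • A) (galPlace (S.gRes g) w) := by
  refine ⟨hA.1.smul _, Ideal.ext fun x => ?_⟩
  rw [galPlace_asIdeal, Ideal.mem_comap, Ideal.mem_comap, ← hA.2, Ideal.mem_comap,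
    FermatAgent.TW.mem_centre_smul, inv_inv,
    show g • toZB S.F x = toZB S.F (galInt (S.gRes g) x) from
      Subtype.ext (S.coe_gRes g (x : S.F)).symm]

/-- The trace at a place of `F` does not depend on the Frobenius element. -/
theorem exists_isTrace : ∃ t : HeightOneSpectrum (𝓞 S.F) → ℤ, S.IsTrace t := by
  choose φ hφ using exists_isFrobOver S.F
  have key : ∀ w, (S.m : 𝓞 S.F) ∉ w.asIdeal → ∀ σ, IsFrobOver w σ →
      q8Trace (S.ρ σ) = q8Trace (S.ρ (φ w)) := by
    intro w hw σ hσ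
    obtain ⟨-, A, hA, hfA⟩ := hσ
    obtain ⟨-, B, hB, hfB⟩ := hφ w
    exact S.q8Trace_eq_of_frob hw (over_of_nonunits hB) (over_of_nonunits hA) hfB hfA
  refine ⟨fun w => q8Trace (S.ρ (φ w)), key, fun σ w hw => ?_⟩
  obtain ⟨hfix, A, hA, hfA⟩ := hφ w
  obtain ⟨g, rfl⟩ := S.exists_lift σ
  have hover := S.over_inv_smul (over_of_nonunits hA) g
  have hfr : IsFrobOver (galPlace (S.gRes g) w) (g⁻¹ * φ w * g⁻¹⁻¹) :=
    ⟨S.conj_mem_fixing_F g⁻¹ hfix, g⁻¹ • A, nonunits_of_over hover, by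
      rw [absNorm_galPlace]; exact FermatAgent.GalRep.isFrobeniusAt_conj _ hfA⟩
  have := key _ (fun h => hw ((natCast_mem_galPlace _ w _).mp h)) _ hfr
  rw [map_mul, map_mul, map_inv, map_inv, map_inv, q8Trace_conj'] at this
  exact this.symm

/-- Over a place with a Frobenius element fixing the field the residue field is prime. -/
theorem absNorm_eq_of_frob_fix {L : IntermediateField ℚ Qb} [NumberField L] {p : ℕ}
    (hp : p.Prime) {A : ValuationSubring Qb} (hAp : A.LiesOverPrime p)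
    {u : HeightOneSpectrum (𝓞 L)} (hA : Over L A u) {τ : GQ} (hfr : A.IsFrobeniusAt τ p)
    (hτ : τ ∈ L.fixingSubgroup) : Ideal.absNorm u.asIdeal = p := by
  have hle : Ideal.absNorm u.asIdeal ≤ p := by
    refine CFT.absNorm_le_of_forall_pow_sub_mem _ hp.one_lt fun x => ?_
    rw [hA.mem_iff]
    have h := ((FermatAgent.TW.isFrobeniusAt_iff).mp hfr).2 _ (mem_of_isIntegral_int A (toZB L x).2)
    rw [FermatAgent.Duality.Global.coe_toZB,
      (IntermediateField.mem_fixingSubgroup_iff _ _).mp hτ _ (x : L).2] at h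
    rw [← neg_sub, Valuation.map_neg] at h
    simpa using h
  have hdvd := Ideal.absNorm_dvd_absNorm_of_le
    ((Ideal.span_singleton_le_iff_mem _).mpr (hA.natCast_mem hAp))
  rw [Ideal.absNorm_span_natCast] at hdvd
  obtain ⟨f, -, hf⟩ := (Nat.dvd_prime_pow hp).mp hdvd
  rcases f with _ | f
  · have := CFT.two_le_absNorm u
    rw [hf, pow_zero] at this
    omega
  · refine le_antisymm hle ?_
    rw [hf]
    exact Nat.le_self_pow (Nat.succ_ne_zero f) _

/-- Infinitely many places of `K` split completely in `F` with nonzero traces. -/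
theorem infinite_splitLetters {t : HeightOneSpectrum (𝓞 S.F) → ℤ} (ht : S.IsTrace t) :
    {v : HeightOneSpectrum (𝓞 S.K) | (S.m : 𝓞 S.K) ∉ v.asIdeal ∧
      ∀ w, S.underK w = v → S.IsLetter w ∧ t w ≠ 0}.Infinite := by
  intro hfin
  set T : Set ℕ := {p | p ∣ S.m} ∪
    (fun v : HeightOneSpectrum (𝓞 S.K) => Ideal.absNorm v.asIdeal) ''
      {v : HeightOneSpectrum (𝓞 S.K) | (S.m : 𝓞 S.K) ∉ v.asIdeal ∧
        ∀ w, S.underK w = v → S.IsLetter w ∧ t w ≠ 0}
  have hT : T.Finite :=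
    ((Set.finite_le_nat S.m).subset fun p hp =>
      Nat.le_of_dvd (Nat.pos_of_ne_zero S.m_ne_zero) hp).union (hfin.image _)
  obtain ⟨p, hp, hpT, A, hA, τ, hτ, m, k, -, hk⟩ :=
    FermatAgent.GalRep.exists_isFrobeniusAt_map_pow_eq S.ρ S.finiteLevel 1 hT
  rw [one_pow, map_one] at hk
  obtain ⟨v, hv⟩ := exists_over (K := S.K) (⟨p, hp, hA⟩ : IsPlace A)
  have hpm : ¬ p ∣ S.m := fun h => hpT (Or.inl h)
  have hmem : ∀ {L : IntermediateField ℚ Qb} [NumberField L] {B : ValuationSubring Qb}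
      {u : HeightOneSpectrum (𝓞 L)}, B.LiesOverPrime p → Over L B u → (S.m : 𝓞 L) ∉ u.asIdeal := by
    intro L _ B u hB hu hm
    rw [← hu.2, Ideal.mem_comap, map_natCast, ← Int.cast_natCast,
      FermatAgent.RT.intCast_mem_centre_iff hp hB, Int.natCast_dvd_natCast] at hm
    exact hpm hm
  have hτF : τ ∈ S.F.fixingSubgroup := S.mem_fixing_F_iff.mpr (hk ▸ one_mem _)
  have hNv : Ideal.absNorm v.asIdeal = p :=
    absNorm_eq_of_frob_fix hp hA hv hτ (S.fixing_F_le_K hτF)
  refine hpT (Or.inr ⟨v, ⟨hmem hA hv, fun w hw => ?_⟩, hNv⟩)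
  obtain ⟨B, hB⟩ := exists_place w
  obtain ⟨g, hg, rfl⟩ := exists_smul_eq_of_over hv (hw ▸ S.over_underK hB)
  have hBp : (g • A).LiesOverPrime p := FermatAgent.LT.mem_nonunits_natCast_of_mem hB (by
    rw [← S.natCast_mem_underK, hw]; exact hv.natCast_mem hA)
  have hfr := FermatAgent.GalRep.isFrobeniusAt_conj g hτ
  have hρ : S.ρ (g * τ * g⁻¹) = 1 := by rw [map_mul, map_mul, ← hk, mul_one, ← map_mul,
    mul_inv_cancel, map_one]
  have hfix : g * τ * g⁻¹ ∈ S.F.fixingSubgroup := S.mem_fixing_F_iff.mpr (hρ ▸ one_mem _)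
  have hNw : Ideal.absNorm w.asIdeal = p := absNorm_eq_of_frob_fix hp hBp hB hfr hfix
  refine ⟨⟨hmem hBp hB, by rw [hNw, hw, hNv]⟩, ?_⟩
  rw [← ht.frob w (hmem hBp hB) _ ⟨hfix, g • A, nonunits_of_over hB, hNw.symm ▸ hfr⟩, hρ, q8Trace,
    if_pos rfl]
  norm_num

/-- Three infinite places of `F` over each of `K`. -/
theorem natCard_infinitePlace :
    Fintype.card (InfinitePlace S.F) = 3 * Fintype.card (InfinitePlace S.K) := by
  have hF := IsTotallyComplex.finrank S.F
  rw [S.finrank_rat_F] at hF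
  have hFc : InfinitePlace.nrRealPlaces S.F = 0 := IsTotallyComplex.nrRealPlaces_eq_zero S.F
  have hK : Subsingleton (InfinitePlace S.K) := inferInstance
  have hK1 : Fintype.card (InfinitePlace S.K) = 1 := Fintype.card_eq_one_iff.mpr
    ⟨default, fun w => Subsingleton.elim w default⟩
  have h := InfinitePlace.card_eq_nrRealPlaces_add_nrComplexPlaces S.F
  omega

theorem exists_w₁ : ∃ w₁ : InfinitePlace S.K → InfinitePlace S.F,
    ∀ u, (w₁ u).comap S.inclKF.toRingHom = u :=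
  ⟨fun u => (S.exists_infinitePlace_over u).choose,
    fun u => (S.exists_infinitePlace_over u).choose_spec⟩

end FermatAgent.LTG.Setup

end
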